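import Fermat.Agent.LT.A.H3
import Fermat.Agent.LT.A.Fin

/-!
# LT: the space `X = (H³)^I × Y`, the action of `PGL₂(F)`, heights (basic definitions)

* `F` is a totally complex number field, `A : Arch F` a choice of one complex embedding for every
  complex place (`A.I` the index set), `U : Level F` a level structure, `D : Datum F` both.
* `XI A = A.I → H3`, `Y U = ∏' GL₂(F) ⧸ H_w`, `X D = XI × Y`.
* `PG F = PGL₂(F)` acts.
* `ht v x` is the height of `x` with respect to the line spanned by `v : Fin 2 → F`.
-/

open NumberField IsDedekindDomain Matrix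

namespace Fermat.LT

/-- Archimedean datum for a totally complex field: one embedding for each complex place. -/
structure Arch (F : Type) [Field F] [NumberField F] where
  /-- index set of the complex places -/
  I : Type
  fI : Fintype I
  dI : DecidableEq I
  /-- the embeddings -/
  emb : I → F →+* ℂ
  bij : Function.Bijective fun i => InfinitePlace.mk (emb i)
  cx : ∀ i, ¬ ComplexEmbedding.IsReal (emb i)

attribute [instance] Arch.fI Arch.dI

/-- Archimedean datum and level structure. -/
structure Datum (F : Type) [Field F] [NumberField F] extends Arch F, Level F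

/-- the archimedean part of the space -/
def XI {F : Type} [Field F] [NumberField F] (A : Arch F) : Type := A.I → H3

section XI
variable {F : Type} [Field F] [NumberField F] (A : Arch F)

noncomputable instance : TopologicalSpace (XI A) := inferInstanceAs (TopologicalSpace (A.I → H3))
instance : T2Space (XI A) := inferInstanceAs (T2Space (A.I → H3))
instance : SecondCountableTopology (XI A) := inferInstanceAs (SecondCountableTopology (A.I → H3))
instance : LocallyCompactSpace (XI A) := inferInstanceAs (LocallyCompactSpace (A.I → H3))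
instance : MeasurableSpace (XI A) := inferInstanceAs (MeasurableSpace (A.I → H3))
noncomputable instance : MeasureTheory.MeasureSpace (XI A) where
  volume := (MeasureTheory.Measure.pi fun _ : A.I => (MeasureTheory.volume : MeasureTheory.Measure H3))
instance : BorelSpace (XI A) := inferInstanceAs (BorelSpace (A.I → H3))
noncomputable instance : Inhabited (XI A) := inferInstanceAs (Inhabited (A.I → H3))

noncomputable instance : MulAction (G2 F) (XI A) where
  smul g x := fun i => (Matrix.GeneralLinearGroup.map (n := Fin 2) (A.emb i) g) • (x i)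
  one_smul x := funext fun i => by
    change (Matrix.GeneralLinearGroup.map (n := Fin 2) (A.emb i) 1) • (x i) = x i
    rw [map_one, one_smul]
  mul_smul g h x := funext fun i => by
    change (Matrix.GeneralLinearGroup.map (n := Fin 2) (A.emb i) (g * h)) • (x i) = _
    rw [map_mul, mul_smul]; rfl

variable {A}

theorem XI_smul_apply (g : G2 F) (x : XI A) (i : A.I) :
    (g • x) i = (Matrix.GeneralLinearGroup.map (n := Fin 2) (A.emb i) g) • (x i) := rfl

end XI

/-- The space `(H³)^I × Y`. -/
abbrev X {F : Type} [Field F] [NumberField F] (D : Datum F) : Type := XI D.toArch × Y D.toLevel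

/-- `PGL₂(F)` -/
abbrev PG (F : Type) [Field F] : Type := Matrix.ProjGenLinGroup (Fin 2) F

section pgl
variable {F : Type} [Field F]

/-- an action of `GL₂(F)` in which scalars act trivially gives an action of `PGL₂(F)` -/
@[reducible] def pgAction {α : Type*} [MulAction (G2 F) α] (h : ∀ (c : Fˣ) (a : α), sc c • a = a) :
    MulAction (PG F) α where
  smul g a := Quotient.liftOn' g (fun g : G2 F => g • a) (by
    intro g₁ g₂ hg
    obtain ⟨c, hc⟩ := (mem_scal_iff (g₁⁻¹ * g₂)).mp (QuotientGroup.leftRel_apply.mp hg)
    have : g₁⁻¹ * g₂ = sc c := Units.ext hc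
    change g₁ • a = g₂ • a
    rw [← mul_inv_cancel_left g₁ g₂, this, mul_smul, h])
  one_smul a := one_smul (G2 F) a
  mul_smul g₁ g₂ a := by
    obtain ⟨g₁, rfl⟩ := Matrix.ProjGenLinGroup.mk_surjective g₁
    obtain ⟨g₂, rfl⟩ := Matrix.ProjGenLinGroup.mk_surjective g₂
    exact mul_smul g₁ g₂ a

end pgl

section action
variable {F : Type} [Field F] [NumberField F]

theorem sc_smul_XI (A : Arch F) (c : Fˣ) (x : XI A) : sc c • x = x := by
  funext i
  rw [XI_smul_apply]
  set g := Matrix.GeneralLinearGroup.map (n := Fin 2) (A.emb i) (sc c) with hg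
  have hc : A.emb i c ≠ 0 := (map_ne_zero _).mpr c.ne_zero
  have e : ∀ a b, g a b = A.emb i ((sc c).1 a b) := fun a b => rfl
  have h00 : g 0 0 = A.emb i c := by rw [e, sc_val]; simp
  have h01 : g 0 1 = 0 := by rw [e, sc_val]; simp
  have h10 : g 1 0 = 0 := by rw [e, sc_val]; simp
  have h11 : g 1 1 = A.emb i c := by rw [e, sc_val]; simp
  apply H3.eq_of_Q_eq
  intro a b
  have h := H3.Q_smul_apply g (x i) a b
  rw [h00, h01, h10, h11, Matrix.det_fin_two, h00, h01, h10, h11] at h
  simp only [zero_mul, add_zero, zero_add, sub_zero, mul_zero] at h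
  rw [H3.Q_smul, norm_mul, Complex.normSq_eq_norm_sq, sq] at h
  have h2 : ‖A.emb i c‖ * ‖A.emb i c‖ ≠ 0 := by positivity
  exact mul_left_cancel₀ h2 h

theorem sc_smul_Y (U : Level F) (c : Fˣ) (y : Y U) : sc c • y = y := by
  refine Y.ext' fun w => ?_
  rw [G2_smul_apply]
  obtain ⟨g, hg⟩ := QuotientGroup.mk_surjective (y w)
  rw [← hg]
  change ((sc c * g : G2 F) : Yl U w) = (g : Yl U w)
  rw [sc_comm, QuotientGroup.eq, _root_.mul_inv_rev, mul_assoc, inv_mul_cancel, mul_one]
  exact inv_mem (U.scal_le w (sc_mem c))

noncomputable instance (A : Arch F) : MulAction (PG F) (XI A) := pgAction (sc_smul_XI A)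
noncomputable instance (U : Level F) : MulAction (PG F) (Y U) := pgAction (sc_smul_Y U)

/-- the class in `PGL₂(F)` -/
abbrev pmk (g : G2 F) : PG F := Matrix.ProjGenLinGroup.mk g

theorem pmk_smul_XI {A : Arch F} (g : G2 F) (x : XI A) : pmk g • x = g • x := rfl
theorem pmk_smul_Y {U : Level F} (g : G2 F) (y : Y U) : pmk g • y = g • y := rfl
theorem pmk_smul {D : Datum F} (g : G2 F) (x : X D) : pmk g • x = g • x := rfl

end action

section heights
variable {F : Type} [Field F] [NumberField F]

/-- archimedean part of the height -/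
noncomputable def hinf {A : Arch F} (v : Fin 2 → F) (x : XI A) : ℝ :=
  ∏ i, ((H3.Q (x i) (A.emb i (v 0)) (A.emb i (v 1))) ^ 2)⁻¹

/-- finite part of the height -/
noncomputable def hfin {U : Level F} (v : Fin 2 → F) (y : Y U) : ℝ := ∏ᶠ w, hY w v (y w)

/-- The height of `x` with respect to (the line spanned by) `v`. -/
noncomputable def ht {D : Datum F} (v : Fin 2 → F) (x : X D) : ℝ := hinf v x.1 * hfin v x.2

/-- the vector `(1,0)` (cusp `∞`) -/
def e1 : Fin 2 → F := ![1, 0]

end heights

section borel
variable {F : Type} [Field F]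

/-- `(1 b; 0 1)` -/
def un (b : F) : G2 F := Matrix.GeneralLinearGroup.mkOfDetNeZero !![1, b; 0, 1] (by simp)

/-- `(a 0; 0 1)` -/
def dg (a : Fˣ) : G2 F := Matrix.GeneralLinearGroup.mkOfDetNeZero !![(a : F), 0; 0, 1] (by simp)

theorem un_add (a b : F) : un (a + b) = un a * un b := by
  ext i j; fin_cases i <;> fin_cases j <;> simp [un, Matrix.GeneralLinearGroup.mkOfDetNeZero, add_comm]

theorem un_zero : un (0 : F) = 1 := by
  ext i j; fin_cases i <;> fin_cases j <;> simp [un, Matrix.GeneralLinearGroup.mkOfDetNeZero]

theorem un_neg (b : F) : un (-b) = (un b)⁻¹ := by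
  rw [eq_inv_iff_mul_eq_one, ← un_add, neg_add_cancel, un_zero]

variable [NumberField F]

/-- the group of translations fixing `y`: `{b ∈ F | n(b) y = y}` (a lattice in `F`) -/
def bY {U : Level F} (y : Y U) : AddSubgroup F where
  carrier := {b | un b • y = y}
  add_mem' := by
    intro a b ha hb
    change un a • y = y at ha
    change un b • y = y at hb
    change un (a + b) • y = y
    rw [un_add, mul_smul, hb, ha]
  zero_mem' := by
    change un 0 • y = y
    rw [un_zero, one_smul]
  neg_mem' := by
    intro a ha
    change un a • y = y at ha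
    change un (-a) • y = y
    rw [un_neg, inv_smul_eq_iff, ha]

/-- the embedding `F → ℂ^I` -/
def embI (A : Arch F) : F →+* (A.I → ℂ) := RingHom.pi A.emb

/-- the lattice of translations of `ℂ^I` attached to `y` -/
def bLat (A : Arch F) {U : Level F} (y : Y U) : AddSubgroup (A.I → ℂ) :=
  (bY y).map (embI A).toAddMonoidHom

/-- translation on the archimedean part -/
noncomputable def trI {A : Arch F} (u : A.I → ℂ) (x : XI A) : XI A := fun i =>
  H3.mk ((x i).z + u i) (x i).t (x i).t_pos

/-- translation by `u ∈ ℂ^I` on `X` -/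
noncomputable def trX {D : Datum F} (u : D.I → ℂ) (x : X D) : X D := (trI u x.1, x.2)

end borel

end Fermat.LT
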